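/-
Row 37 (S43), block OPS (helper297).  GENERIC GALOIS LEMMA.
If `D, D' : FB F₀ →ₐ[ℚ̄] FB F₀` satisfy `σ (D f) = D' f` for `f` in a set of generators of `F₀` over `ℚ`, then
`σ (D u) = D' (σ u)` for every `u ∈ FB F₀`.
-/
import Fermat.Agent.S48.BB.E.Defs
import Fermat.Agent.S48.BB.U.Basic

set_option autoImplicit false

noncomputable section

namespace Fermat.Agent.S43.Ops

open ModularCurve
open Fermat.Agent.S24 Fermat.Agent.S48.BB Fermat.Agent.S48.BB.U Fermat.Agent.S48.BB.E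
open Fermat.Agent.GAL.E (GQ)

variable {F₀ : IntermediateField ℚ (LaurentSeries ℚ)}

variable (F₀) in
/-- `ofQ` as a ring homomorphism. -/
def ofQHom : F₀ →+* FB F₀ where
  toFun := ofQ
  map_one' := Subtype.ext (map_one (coeffEmb Kbar))
  map_mul' a b := Subtype.ext (map_mul (coeffEmb Kbar) a.1 b.1)
  map_zero' := Subtype.ext (map_zero (coeffEmb Kbar))
  map_add' a b := Subtype.ext (map_add (coeffEmb Kbar) a.1 b.1)

theorem ofQHom_apply (f : F₀) : ofQHom F₀ f = ofQ f := rfl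

theorem galF_ofQ (σ : GQ) (f : F₀) : galF F₀ σ (ofQ f) = ofQ f := by
  apply Subtype.ext
  rw [coe_galF, coe_ofQ, coeffMap_coeffEmb]

/-- two ring homomorphisms out of `F₀ = ℚ(S)` which agree on `S` are equal -/
theorem ringHom_ext_of_gen {R : Type*} [Field R] [CharZero R] (S : Set (LaurentSeries ℚ))
    (hS : F₀ = IntermediateField.adjoin ℚ S) (φ ψ : F₀ →+* R)
    (h : ∀ f : F₀, f.1 ∈ S → φ f = ψ f) : φ = ψ := by
  have key : ∀ y : LaurentSeries ℚ, y ∈ IntermediateField.adjoin ℚ S → ∀ hy : y ∈ F₀,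
      φ ⟨y, hy⟩ = ψ ⟨y, hy⟩ := by
    intro y hy'
    induction hy' using IntermediateField.adjoin_induction with
    | mem y hyS => exact fun hy => h ⟨y, hy⟩ hyS
    | algebraMap c =>
      intro hy
      have e : (⟨algebraMap ℚ (LaurentSeries ℚ) c, hy⟩ : F₀) = ((c : ℚ) : F₀) := by
        apply Subtype.ext
        show algebraMap ℚ (LaurentSeries ℚ) c = (((c : ℚ) : F₀) : LaurentSeries ℚ)
        rw [eq_ratCast (algebraMap ℚ (LaurentSeries ℚ)) c]
        norm_cast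
      rw [e, map_ratCast, map_ratCast]
    | add a b ha hb h1 h2 =>
      intro hy
      have e : (⟨a + b, hy⟩ : F₀) = ⟨a, hS ▸ ha⟩ + ⟨b, hS ▸ hb⟩ := rfl
      rw [e, map_add, map_add, h1, h2]
    | inv a ha h1 =>
      intro hy
      have e : (⟨a⁻¹, hy⟩ : F₀) = (⟨a, hS ▸ ha⟩ : F₀)⁻¹ := rfl
      rw [e, map_inv₀, map_inv₀, h1]
    | mul a b ha hb h1 h2 =>
      intro hy
      have e : (⟨a * b, hy⟩ : F₀) = ⟨a, hS ▸ ha⟩ * ⟨b, hS ▸ hb⟩ := rfl
      rw [e, map_mul, map_mul, h1, h2]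
  exact RingHom.ext fun f => key f.1 (hS ▸ f.2) f.2

/-- **The generic Galois lemma.** -/
theorem galF_comm_of_gen (S : Set (LaurentSeries ℚ)) (hS : F₀ = IntermediateField.adjoin ℚ S)
    (σ : GQ) (D D' : FB F₀ →ₐ[Kbar] FB F₀)
    (h : ∀ f : F₀, f.1 ∈ S → galF F₀ σ (D (ofQ f)) = D' (ofQ f)) (u : FB F₀) :
    galF F₀ σ (D u) = D' (galF F₀ σ u) := by
  have h1 : ((galF F₀ σ : FB F₀ →+* FB F₀).comp (D : FB F₀ →+* FB F₀)).comp (ofQHom F₀) =
      (D' : FB F₀ →+* FB F₀).comp (ofQHom F₀) :=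
    ringHom_ext_of_gen S hS _ _ h
  induction u using FB_induction with
  | hQ f =>
    rw [galF_ofQ]
    exact RingHom.congr_fun h1 f
  | hc c => rw [AlgHom.commutes, galF_algebraMap, AlgHom.commutes]
  | hadd f g hf hg => rw [map_add, map_add, map_add, map_add, hf, hg]
  | hmul f g hf hg => rw [map_mul, map_mul, map_mul, map_mul, hf, hg]
  | hinv f hf => rw [map_inv₀, map_inv₀, map_inv₀, map_inv₀, hf]

end Fermat.Agent.S43.Ops

end
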