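/-
Row 37 (S43), block OPS (helper297).  DIAMOND OPERATORS at the level `±Γ₁(q) ∩ Γ₀(q M)`.

`F1 = F1Q q M`, `hL1 q M : IsLvl F1 (H1 q M) (q * M)`, `F0 = modularFunctionFieldFull (q * M)`, `hL0 q M`.
* `dia q M : (ZMod q)ˣ →* (FB F1 ≃ₐ[ℚ̄] FB F1)`, `⟨d⟩ u = u ∘ γ` for any `γ ∈ Γ₀(q M)` with lower right entry `d`
  modulo `q` (`Psi_dia_of`);
* `dia_uB` : `⟨d⟩ u_a = u_{a d⁻¹}`;  `dia_alphaB` : `⟨d⟩` fixes `FB F0`;  `exists_alphaB_eq_of_dia` : the fixed field is `FB F0`;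
* `galF_dia` : the diamond operators are defined over `ℚ`;  `dia_neg_one`.
-/
import Fermat.Agent.S43.Ops.Gal
import Fermat.Agent.S48.BB.T.Diamond.Gen
import Fermat.Agent.S48.BB.T.LevelUp
import Fermat.Agent.S48.BB.W.Lvl
import Fermat.Agent.S48.BB.V.LvlFull
import Fermat.Agent.S48.BB.H.Defs
import Fermat.Agent.S48.BB.P.LL
import Fermat.Agent.S48.A.Exists

set_option autoImplicit false

noncomputable section

namespace Fermat.Agent.S43.Ops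

open ModularCurve CongruenceSubgroup
open Fermat.Agent.S24 Fermat.Agent.S24.B Fermat.Agent.GAL.Mult
open Fermat.Agent.S48.A Fermat.Agent.S48.BB Fermat.Agent.S48.BB.U Fermat.Agent.S48.BB.E
open Fermat.Agent.S48.BB.T (Nrm diam Psi_diam diam_mul diam_congr diam_of_mem alphaB Psi_alphaB coe_alphaB)
open Fermat.Agent.GAL.E (GQ)
open scoped MatrixGroups

variable (q M : ℕ) [NeZero q] [NeZero M]

/-- the level structure of `F1Q q M` -/
theorem hL1 : IsLvl (F1Q q M) (H1 q M) (q * M) := W.isLvl_F1Q q M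

/-- the level structure of the field of `Γ₀(q M)` -/
theorem hL0 : IsLvl (modularFunctionFieldFull (q * M)) (Gamma0 (q * M)) (q * M) := V.isLvl_full (q * M)

theorem F0_le_F1 : modularFunctionFieldFull (q * M) ≤ F1Q q M := le_sup_right

variable {q M}

theorem Gamma0_mul_le : Gamma0 (q * M) ≤ Gamma0 q := by
  intro γ hγ
  rw [Gamma0_mem, ZMod.intCast_zmod_eq_zero_iff_dvd] at hγ ⊢
  exact (Int.natCast_dvd_natCast.mpr (Dvd.intro M rfl)).trans hγ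

theorem mem_H1_iff' {γ : SL(2, ℤ)} :
    γ ∈ H1 q M ↔ γ ∈ Gamma0 (q * M) ∧ (dd q γ = 1 ∨ dd q γ = -1) := by
  rw [H1, Subgroup.mem_inf, H.pmGamma1_eq, H.mem_pmSub]
  constructor
  · rintro ⟨⟨-, h⟩, h0⟩
    exact ⟨h0, h⟩
  · rintro ⟨h0, h⟩
    exact ⟨⟨Gamma0_mul_le h0, h⟩, h0⟩

theorem H1_le_Gamma0' : H1 q M ≤ Gamma0 (q * M) := fun _ h => (mem_H1_iff'.1 h).1

theorem mem_H1_of_dd_eq' {σ τ : SL(2, ℤ)} (hσ : σ ∈ Gamma0 (q * M)) (hτ : τ ∈ Gamma0 (q * M))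
    (h : dd q σ = dd q τ) : σ * τ⁻¹ ∈ H1 q M := by
  rw [mem_H1_iff']
  refine ⟨mul_mem hσ (inv_mem hτ), Or.inl ?_⟩
  rw [dd_mul (Gamma0_mul_le hσ), h, dd_mul_dd_inv (Gamma0_mul_le hτ)]

theorem nrm_of_mem_Gamma0 {σ : SL(2, ℤ)} (hσ : σ ∈ Gamma0 (q * M)) : Nrm (H1 q M) σ := by
  have key : ∀ {σ : SL(2, ℤ)}, σ ∈ Gamma0 (q * M) → ∀ γ ∈ H1 q M, σ * γ * σ⁻¹ ∈ H1 q M := by
    intro σ hσ γ hγ
    rw [mem_H1_iff'] at hγ ⊢
    refine ⟨mul_mem (mul_mem hσ hγ.1) (inv_mem hσ), ?_⟩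
    have h1 : dd q (σ * γ * σ⁻¹) = dd q γ := by
      rw [dd_mul (Gamma0_mul_le (mul_mem hσ hγ.1)), dd_mul (Gamma0_mul_le hσ), mul_comm (dd q σ),
        mul_assoc, dd_mul_dd_inv (Gamma0_mul_le hσ), mul_one]
    rw [h1]
    exact hγ.2
  intro γ
  refine ⟨key hσ γ, fun h => ?_⟩
  have := key (inv_mem hσ) _ h
  simpa [mul_assoc] using this

variable (q M)

theorem exists_sg (d : (ZMod q)ˣ) : ∃ σ : SL(2, ℤ), σ ∈ Gamma0 (q * M) ∧ dd q σ = d := by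
  obtain ⟨e, he⟩ := ZMod.unitsMap_surjective (Dvd.intro M rfl : q ∣ q * M) d
  obtain ⟨σ, hσ, hd, -⟩ := exists_mem_Gamma0_dd_eq (p := 1) (N := q * M)
    (Nat.coprime_one_left _) e.isUnit
  refine ⟨σ, hσ, ?_⟩
  have h1 : (ZMod.castHom (Dvd.intro M rfl : q ∣ q * M) (ZMod q)) (dd (q * M) σ) = dd q σ := by
    simp [dd]
  rw [← h1, hd, ← he]
  rfl

/-- `σ_d ∈ Γ₀(q M)` with lower right entry `d` modulo `q`. -/
def sg (d : (ZMod q)ˣ) : SL(2, ℤ) := (exists_sg q M d).choose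

theorem sg_mem (d : (ZMod q)ˣ) : sg q M d ∈ Gamma0 (q * M) := (exists_sg q M d).choose_spec.1

theorem dd_sg (d : (ZMod q)ˣ) : dd q (sg q M d) = d := (exists_sg q M d).choose_spec.2

/-- `⟨d⟩ u = u ∘ σ_d`. -/
def diaAut (d : (ZMod q)ˣ) : FB (F1Q q M) ≃ₐ[Kbar] FB (F1Q q M) :=
  diam (hL1 q M) (nrm_of_mem_Gamma0 (sg_mem q M d))

variable {q M}

theorem Psi_diaAut_of (d : (ZMod q)ˣ) {γ : SL(2, ℤ)} (hγ : γ ∈ Gamma0 (q * M))
    (hd : dd q γ = d) (u : FB (F1Q q M)) :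
    Psi (hL1 q M) (diaAut q M d u) = γ⁻¹ • Psi (hL1 q M) u := by
  rw [diaAut, diam_congr (hL1 q M) _ (nrm_of_mem_Gamma0 hγ)
    (mem_H1_of_dd_eq' (sg_mem q M d) hγ (by rw [dd_sg, hd])), Psi_diam]

variable (q M)

/-- **The diamond action.** -/
def dia : (ZMod q)ˣ →* (FB (F1Q q M) ≃ₐ[Kbar] FB (F1Q q M)) where
  toFun d := diaAut q M d
  map_one' := by
    refine AlgEquiv.ext fun u => Psi_injective (hL1 q M) ?_
    rw [Psi_diaAut_of 1 (one_mem _) (by rw [dd_one, Units.val_one]), inv_one, one_smul]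
    rfl
  map_mul' d e := by
    refine AlgEquiv.ext fun u => Psi_injective (hL1 q M) ?_
    rw [Psi_diaAut_of (d * e) (mul_mem (sg_mem q M e) (sg_mem q M d))
      (by rw [dd_mul (Gamma0_mul_le (sg_mem q M e)), dd_sg, dd_sg, Units.val_mul, mul_comm]),
      mul_inv_rev, mul_smul]
    show _ = Psi (hL1 q M) (diaAut q M d (diaAut q M e u))
    rw [Psi_diaAut_of d (sg_mem q M d) (dd_sg q M d), Psi_diaAut_of e (sg_mem q M e) (dd_sg q M e)]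

variable {q M}

/-- **Characterisation of the diamond operators.** -/
theorem Psi_dia_of (d : (ZMod q)ˣ) {γ : SL(2, ℤ)} (hγ : γ ∈ Gamma0 (q * M))
    (hd : dd q γ = d) (u : FB (F1Q q M)) :
    Psi (hL1 q M) (dia q M d u) = γ⁻¹ • Psi (hL1 q M) u := Psi_diaAut_of d hγ hd u

theorem real_dia_of (d : (ZMod q)ˣ) {γ : SL(2, ℤ)} (hγ : γ ∈ Gamma0 (q * M))
    (hd : dd q γ = d) (u : FB (F1Q q M)) :
    real (hL1 q M) (dia q M d u) = (sl γ)⁻¹ • real (hL1 q M) u := by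
  rw [U.real_apply, Psi_dia_of d hγ hd, embL_smul, map_inv, U.real_apply]

/-- the unit `dd q γ` for `γ ∈ Γ₀(q M)` -/
def ddU {γ : SL(2, ℤ)} (hγ : γ ∈ Gamma0 (q * M)) : (ZMod q)ˣ := (isUnit_dd (Gamma0_mul_le hγ)).unit

theorem coe_ddU {γ : SL(2, ℤ)} (hγ : γ ∈ Gamma0 (q * M)) : ((ddU hγ : (ZMod q)ˣ) : ZMod q) = dd q γ :=
  rfl

theorem inv_smul_Psi {γ : SL(2, ℤ)} (hγ : γ ∈ Gamma0 (q * M)) (u : FB (F1Q q M)) :
    γ⁻¹ • Psi (hL1 q M) u = Psi (hL1 q M) (dia q M (ddU hγ) u) :=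
  (Psi_dia_of _ hγ rfl u).symm

theorem dia_neg_one : dia q M (-1) = 1 := by
  refine AlgEquiv.ext fun u => Psi_injective (hL1 q M) ?_
  have h1 : (-1 : SL(2, ℤ)) ∈ H1 q M := by
    rw [mem_H1_iff']
    exact ⟨H.neg_one_mem_Gamma0, Or.inr H.dd_neg_one⟩
  rw [Psi_dia_of (-1) (H1_le_Gamma0' h1) (by rw [H.dd_neg_one]; simp),
    smul_Psi_of_mem (hL1 q M) _ (inv_mem h1)]
  rfl

/-! ### The generators -/

variable (q M) in
/-- `u_a` as an element of `FB (F1Q q M)`. -/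
def uB (a : ZMod q) : FB (F1Q q M) :=
  ofQ ⟨uQ q a, (le_sup_left : IntermediateField.adjoin ℚ (Set.range (uQ q)) ≤ F1Q q M)
    (IntermediateField.subset_adjoin ℚ _ ⟨a, rfl⟩)⟩

theorem Psi_uB (a : ZMod q) : Psi (hL1 q M) (uB q M a) = P.uaLL q M a :=
  Psi_ofQ_eq (hL1 q M) _ (P.realises_uaLL q M a)

theorem a_mul_dd {γ : SL(2, ℤ)} (hγ : γ ∈ Gamma0 q) : ((γ 0 0 : ℤ) : ZMod q) * dd q γ = 1 :=
  W.diag_mul_of_mem_Gamma0 hγ

/-- `⟨d⟩ u_a = u_{a d⁻¹}`. -/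
theorem dia_uB (d : (ZMod q)ˣ) (a : ZMod q) :
    dia q M d (uB q M a) = uB q M (a * ((d⁻¹ : (ZMod q)ˣ) : ZMod q)) := by
  apply Psi_injective (hL1 q M)
  rw [Psi_dia_of d (sg_mem q M d) (dd_sg q M d), Psi_uB, Psi_uB,
    P.inv_smul_uaLL q M a _ (Gamma0_mul_le (sg_mem q M d))]
  congr 2
  have h := a_mul_dd (Gamma0_mul_le (sg_mem q M d))
  rw [dd_sg] at h
  exact (Units.eq_inv_of_mul_eq_one_right h)

/-- the diamond operators fix the functions of level `Γ₀(q M)` -/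
theorem dia_alphaB (d : (ZMod q)ˣ) (v : FB (modularFunctionFieldFull (q * M))) :
    dia q M d (alphaB (F0_le_F1 q M) v) = alphaB (F0_le_F1 q M) v := by
  apply Psi_injective (hL1 q M)
  rw [Psi_dia_of d (sg_mem q M d) (dd_sg q M d), Psi_alphaB (hL0 q M) (hL1 q M),
    smul_Psi_of_mem (hL0 q M) _ (inv_mem (sg_mem q M d))]

/-- **the fixed field of the diamond operators is `FB F0`** -/
theorem exists_alphaB_eq_of_dia (u : FB (F1Q q M)) (h : ∀ d, dia q M d u = u) :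
    ∃ v : FB (modularFunctionFieldFull (q * M)), alphaB (F0_le_F1 q M) v = u := by
  obtain ⟨v, hv⟩ := exists_Psi_eq_of_fixed (hL0 q M) (Psi (hL1 q M) u) (fun γ hγ => by
    have h1 := inv_smul_Psi (inv_mem hγ) u
    rw [inv_inv, h] at h1
    exact h1)
  refine ⟨v, Psi_injective (hL1 q M) ?_⟩
  rw [Psi_alphaB (hL0 q M) (hL1 q M), hv]

/-! ### Galois -/

theorem F1Q_eq_adjoin' : F1Q q M = IntermediateField.adjoin ℚ
    (Set.range (uQ q) ∪ (modularFunctionFieldFull (q * M) : Set (LaurentSeries ℚ))) := by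
  rw [IntermediateField.adjoin_union, IntermediateField.adjoin_self]
  rfl

theorem ofQ_eq_uB {f : F1Q q M} {a : ZMod q} (h : uQ q a = f.1) : ofQ f = uB q M a :=
  congrArg ofQ (Subtype.ext h.symm)

theorem ofQ_eq_alphaB {f : F1Q q M} (h : f.1 ∈ modularFunctionFieldFull (q * M)) :
    ofQ f = alphaB (F0_le_F1 q M) (ofQ ⟨f.1, h⟩) :=
  Subtype.ext (by rw [coe_alphaB, coe_ofQ, coe_ofQ])

theorem galF_uB (σ : GQ) (a : ZMod q) : galF (F1Q q M) σ (uB q M a) = uB q M a := galF_ofQ σ _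

/-- **The diamond operators are defined over `ℚ`.** -/
theorem galF_dia (d : (ZMod q)ˣ) (σ : GQ) (u : FB (F1Q q M)) :
    galF (F1Q q M) σ (dia q M d u) = dia q M d (galF (F1Q q M) σ u) := by
  refine galF_comm_of_gen _ F1Q_eq_adjoin' σ (dia q M d : FB (F1Q q M) →ₐ[Kbar] FB (F1Q q M))
    (dia q M d : FB (F1Q q M) →ₐ[Kbar] FB (F1Q q M)) ?_ u
  rintro f (⟨a, ha⟩ | hf)
  · rw [ofQ_eq_uB ha]
    show galF (F1Q q M) σ (dia q M d (uB q M a)) = dia q M d (uB q M a)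
    rw [dia_uB, galF_uB]
  · rw [ofQ_eq_alphaB hf]
    show galF (F1Q q M) σ (dia q M d (alphaB _ _)) = dia q M d (alphaB _ _)
    rw [dia_alphaB, ← ofQ_eq_alphaB hf, galF_ofQ]

end Fermat.Agent.S43.Ops

end
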