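/-
Row 37 (S43), block OPS (helper297).  GENERIC: automorphisms of `FB F₀` induced by integral matrices.

For `hL : IsLvl F₀ H N` and an integral matrix `g` of positive determinant (`N * det g ∣ N'`, `N' = N * k`) which
normalises `H` (`GLNrm H g`):
* `glHom hL hk hg hn : FB F₀ →ₐ[ℚ̄] FB F₀`, `u ↦ u ∘ g`, characterised by `real_glHom : real hL (glHom … u) = g⁻¹ • real hL u`
  and by `Psi_glHom` (in `LL N'`);
* `glInv` : the involution if `g * g` acts trivially modulo `H` and scalars.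
* `glI A hA : GL(2,ℝ)⁺` for an integral matrix `A` of positive determinant, `glI_mul_sl`.
-/
import Fermat.Agent.S43.Ops.Rel.Rep

set_option autoImplicit false

noncomputable section

namespace Fermat.Agent.S43.Ops

open ModularCurve UpperHalfPlane
open Fermat.Agent.S24 Fermat.Agent.GAL.Mult Fermat.Agent.S48.BB Fermat.Agent.S48.BB.U
open Fermat.Agent.S48.BB.T Fermat.Agent.S43.Ops.Rel
open scoped MatrixGroups

/-- shortcut instance (the generic search times out) -/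
local instance instDMAGL : DistribMulAction GL(2, ℝ)⁺ MM := instActionMM.toDistribMulAction

/-- shortcut instance (the generic search times out) -/
local instance instMAGL : MulAction GL(2, ℝ)⁺ MM := instDMAGL.toMulAction

/-- shortcut instance (the generic search times out) -/
local instance instSAGL : SemigroupAction GL(2, ℝ)⁺ MM := instMAGL.toSemigroupAction

/-! ### Integral matrices -/

/-- An integral matrix of positive determinant as an element of `GL(2,ℝ)⁺`. -/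
def glI (A : Matrix (Fin 2) (Fin 2) ℤ) (hA : 0 < A.det) : GL(2, ℝ)⁺ :=
  ⟨Matrix.GeneralLinearGroup.mkOfDetNeZero (A.map (Int.cast : ℤ → ℝ)) (by
    have h : (A.map (Int.cast : ℤ → ℝ)).det = ((A.det : ℤ) : ℝ) := by
      rw [Matrix.det_fin_two, Matrix.det_fin_two]
      simp
    rw [h]
    exact_mod_cast hA.ne'), by
    rw [Matrix.mem_glpos]
    show 0 < (A.map (Int.cast : ℤ → ℝ)).det
    have h : (A.map (Int.cast : ℤ → ℝ)).det = ((A.det : ℤ) : ℝ) := by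
      rw [Matrix.det_fin_two, Matrix.det_fin_two]
      simp
    rw [h]
    exact_mod_cast hA⟩

theorem coe_glI (A : Matrix (Fin 2) (Fin 2) ℤ) (hA : 0 < A.det) :
    (((glI A hA : GL(2, ℝ)⁺) : GL (Fin 2) ℝ) : Matrix (Fin 2) (Fin 2) ℝ) =
      A.map (Int.cast : ℤ → ℝ) := rfl

theorem coe_sl_val (γ : SL(2, ℤ)) :
    (((sl γ : GL(2, ℝ)⁺) : GL (Fin 2) ℝ) : Matrix (Fin 2) (Fin 2) ℝ) =
      γ.1.map (Int.cast : ℤ → ℝ) := by
  ext i j
  simp [coe_sl]

theorem isIntLevel_glI {N N' : ℕ} (A : Matrix (Fin 2) (Fin 2) ℤ) (hA : 0 < A.det)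
    (h : (N : ℤ) * A.det ∣ (N' : ℤ)) : IsIntLevel N N' (glI A hA) := ⟨A, h, rfl⟩

theorem map_mul_int (A B : Matrix (Fin 2) (Fin 2) ℤ) :
    (A * B).map (Int.cast : ℤ → ℝ) = A.map (Int.cast : ℤ → ℝ) * B.map (Int.cast : ℤ → ℝ) :=
  Matrix.map_mul (f := Int.castRingHom ℝ)

/-- a relation between integral matrices gives a relation in `GL(2,ℝ)⁺` -/
theorem glI_mul_sl {A B : Matrix (Fin 2) (Fin 2) ℤ} (hA : 0 < A.det) (hB : 0 < B.det)
    {γ δ : SL(2, ℤ)} (h : A * γ.1 = δ.1 * B) : glI A hA * sl γ = sl δ * glI B hB := by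
  apply Subtype.ext
  apply Units.ext
  show (((glI A hA : GL(2, ℝ)⁺) : GL (Fin 2) ℝ) : Matrix (Fin 2) (Fin 2) ℝ) *
      (((sl γ : GL(2, ℝ)⁺) : GL (Fin 2) ℝ) : Matrix (Fin 2) (Fin 2) ℝ) =
    (((sl δ : GL(2, ℝ)⁺) : GL (Fin 2) ℝ) : Matrix (Fin 2) (Fin 2) ℝ) *
      (((glI B hB : GL(2, ℝ)⁺) : GL (Fin 2) ℝ) : Matrix (Fin 2) (Fin 2) ℝ)
  rw [coe_glI, coe_glI, coe_sl_val, coe_sl_val, ← map_mul_int, ← map_mul_int, h]

/-- `A * B = c • δ` with `δ ∈ H`: the product acts trivially modulo `H` and scalars -/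
theorem eqv_one_of_mul {H : Subgroup SL(2, ℤ)} {A B : Matrix (Fin 2) (Fin 2) ℤ} (hA : 0 < A.det)
    (hB : 0 < B.det) {δ : SL(2, ℤ)} (hδ : δ ∈ H) {c : ℤ} (hc : c ≠ 0) (h : A * B = c • δ.1) :
    Eqv H (glI A hA * glI B hB) 1 := by
  refine Eqv.of_val_eq hδ (c := (c : ℝ)) (by exact_mod_cast hc) ?_
  rw [mul_one]
  show (((glI A hA : GL(2, ℝ)⁺) : GL (Fin 2) ℝ) : Matrix (Fin 2) (Fin 2) ℝ) *
      (((glI B hB : GL(2, ℝ)⁺) : GL (Fin 2) ℝ) : Matrix (Fin 2) (Fin 2) ℝ) = _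
  rw [coe_glI, coe_glI, coe_sl_val, ← map_mul_int, h]
  ext i j
  simp only [Matrix.map_apply, Matrix.smul_apply, smul_eq_mul, Int.cast_mul]

/-! ### The homomorphism `u ↦ u ∘ g` -/

/-- `g H ⊆ H g`. -/
def GLNrm (H : Subgroup SL(2, ℤ)) (g : GL(2, ℝ)⁺) : Prop :=
  ∀ γ ∈ H, ∃ δ ∈ H, g * sl γ = sl δ * g

variable {F₀ : IntermediateField ℚ (LaurentSeries ℚ)} {H : Subgroup SL(2, ℤ)} {N N' : ℕ} [NeZero N]
  [NeZero N']

theorem smul_compLL_Psi (hL : IsLvl F₀ H N) {g : GL(2, ℝ)⁺} (hg : IsIntLevel N N' g)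
    (hn : GLNrm H g) (u : FB F₀) (γ : SL(2, ℤ)) (hγ : γ ∈ H) :
    γ • compLL g hg (Psi hL u) = compLL g hg (Psi hL u) := by
  obtain ⟨δ, hδ, h⟩ := hn γ⁻¹ (inv_mem hγ)
  have h1 := smul_compLL hg hg γ⁻¹ δ h (Psi hL u)
  rw [inv_inv, smul_Psi_of_mem hL _ (inv_mem hδ)] at h1
  exact h1

/-- `u ↦ u ∘ g`. -/
def glHom (hL : IsLvl F₀ H N) {k : ℕ} (hk : N * k = N') {g : GL(2, ℝ)⁺}
    (hg : IsIntLevel N N' g) (hn : GLNrm H g) : FB F₀ →ₐ[Kbar] FB F₀ :=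
  liftPsi (IsLvl.levelUp hL hk) ((compLL g hg).comp (Psi hL))
    (fun u γ hγ => smul_compLL_Psi hL hg hn u γ hγ)

theorem Psi_glHom (hL : IsLvl F₀ H N) {k : ℕ} (hk : N * k = N') {g : GL(2, ℝ)⁺}
    (hg : IsIntLevel N N' g) (hn : GLNrm H g) (u : FB F₀) :
    Psi (IsLvl.levelUp hL hk) (glHom hL hk hg hn u) = compLL g hg (Psi hL u) :=
  Psi_liftPsi (IsLvl.levelUp hL hk) _ _ u

/-- **Characterisation of `glHom`.** -/
theorem real_glHom (hL : IsLvl F₀ H N) {k : ℕ} (hk : N * k = N') {g : GL(2, ℝ)⁺}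
    (hg : IsIntLevel N N' g) (hn : GLNrm H g) (u : FB F₀) :
    real hL (glHom hL hk hg hn u) = g⁻¹ • real hL u := by
  rw [← real_levelUp hL (IsLvl.levelUp hL hk) hk, U.real_apply, Psi_glHom, embL_compLL, U.real_apply]

/-- the `q`-expansion of `u ∘ g` -/
theorem qExpand_glHom (hL : IsLvl F₀ H N) {k : ℕ} (hk : N * k = N') {g : GL(2, ℝ)⁺}
    (hg : IsIntLevel N N' g) (hn : GLNrm H g) (u : FB F₀) :
    qExpand Kbar N' ((glHom hL hk hg hn u : FB F₀) : LaurentSeries Kbar) =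
      texpLL N' (compLL g hg (Psi hL u)) := by
  rw [← Psi_glHom hL hk hg hn, texpLL_Psi]

theorem glHom_glHom_of_eqv (hL : IsLvl F₀ H N) {k : ℕ} (hk : N * k = N') {g g' : GL(2, ℝ)⁺}
    (hg : IsIntLevel N N' g) (hn : GLNrm H g) (hg' : IsIntLevel N N' g') (hn' : GLNrm H g')
    (h : Eqv H (g' * g) 1) (u : FB F₀) : glHom hL hk hg hn (glHom hL hk hg' hn' u) = u := by
  apply real_injective hL
  rw [real_glHom, real_glHom, ← mul_smul, ← mul_inv_rev, h.smul_real hL, inv_one, one_smul]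

/-- the involution `u ↦ u ∘ g` when `g * g` is trivial modulo `H` and scalars -/
def glInv (hL : IsLvl F₀ H N) {k : ℕ} (hk : N * k = N') {g : GL(2, ℝ)⁺}
    (hg : IsIntLevel N N' g) (hn : GLNrm H g) (h : Eqv H (g * g) 1) : FB F₀ ≃ₐ[Kbar] FB F₀ :=
  AlgEquiv.ofAlgHom (glHom hL hk hg hn) (glHom hL hk hg hn)
    (AlgHom.ext fun u => glHom_glHom_of_eqv hL hk hg hn hg hn h u)
    (AlgHom.ext fun u => glHom_glHom_of_eqv hL hk hg hn hg hn h u)

theorem glInv_apply (hL : IsLvl F₀ H N) {k : ℕ} (hk : N * k = N') {g : GL(2, ℝ)⁺}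
    (hg : IsIntLevel N N' g) (hn : GLNrm H g) (h : Eqv H (g * g) 1) (u : FB F₀) :
    glInv hL hk hg hn h u = glHom hL hk hg hn u := rfl

end Fermat.Agent.S43.Ops

end
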