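/-
Row 37 (S43), block OPS (helper297).  THE OPERATOR `U_q^t = w⁻¹ U_q w` AT LEVEL `F1Q q M`.
`wTw hq hc : Triv.WTw (F1Q q M) (ZMod q)ˣ` is the Atkin-Lehner datum in the generic format of TRIV
(`w := w hc`, `dia := dia q M`, `e σ := (eps q σ)⁻¹`).  For ANY `X : U.UOp (F1Q q M) q`, any `n`, `D := wTw hq hc`:
* `UsW_eq`  : `D.UsW X n x = w (U (w x))`;
* `Ut_dia`  : `U^t` commutes with the diamond operators;
* `Ut_rho`  : `U^t` commutes with `G_ℚ`;
* `Ut_T`    : `U^t` commutes with `T_l`;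
* `Ut_U_dia`, ... ; `dn_Ut`, `up_Ut` : `π_* U^t = (w0 U_0 w0) π_*`, `U^t π^* = π^* (w0 U_0 w0)`.
-/
import Fermat.Agent.S43.Ops.W.Inst
import Fermat.Agent.S43.Ops.Rel.Inst
import Fermat.Agent.S43.Ops.Pi.W

set_option autoImplicit false

noncomputable section

namespace Fermat.Agent.S43.Ops

open ModularCurve
open Fermat.Agent.S24 Fermat.Agent.S24.B Fermat.Agent.S48.BB Fermat.Agent.S48.BB.E
  Fermat.Agent.S48.BB.T Fermat.Agent.S48.BB.M
open Fermat.Agent.GAL.E (GQ)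

variable {q M : ℕ} [NeZero q] [NeZero M]

/-- The Atkin-Lehner datum at level `F1Q q M`, in the generic format of TRIV. -/
def wTw (hq : q.Prime) (hc : Nat.Coprime q M) : Triv.WTw (F1Q q M) (ZMod q)ˣ := (wDat hq hc).toWTw

section

variable (hq : q.Prime) (hc : Nat.Coprime q M)

theorem wTw_dia : (wTw hq hc).dia = dia q M := rfl

theorem wTw_w : (wTw hq hc).w = w hc := rfl

theorem wTw_e (σ : GQ) : (wTw hq hc).e σ = (eps q σ)⁻¹ := rfl

theorem wTw_acts (σ : GQ) : W.ActsBy σ ((wTw hq hc).e σ)⁻¹ := by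
  rw [wTw_e, inv_inv]
  exact actsBy_eps q σ

theorem w_inv : (w hc)⁻¹ = w hc := by
  rw [inv_eq_iff_mul_eq_one]
  exact AlgEquiv.ext fun u => w_w hc u

theorem wTw_wW (n : ℕ) : (wTw hq hc).wW n = autW (w hc) n := rfl

theorem wTw_wWinv (n : ℕ) : (wTw hq hc).wWinv n = autW (w hc) n := by
  show autW (w hc)⁻¹ n = autW (w hc) n
  rw [w_inv]

theorem wTw_diaW (n : ℕ) (d : (ZMod q)ˣ) : (wTw hq hc).diaW n d = autW (dia q M d) n := rfl

variable (X : U.UOp (F1Q q M) q) (n : ℕ)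

/-- `U^t = w U w`. -/
theorem UsW_eq (x : W1 (F1Q q M) n) :
    (wTw hq hc).UsW X n x = autW (w hc) n (X.UW n (autW (w hc) n x)) := by
  rw [Triv.WTw.UsW_apply, wTw_wWinv, wTw_wW]

theorem UtW_eq_UsW : Triv.UtW (wDat hq hc) X n = (wTw hq hc).UsW X n := rfl

/-- every `U_q` commutes with the diamond operators, on the Kummer module -/
theorem UW_dia (d : (ZMod q)ˣ) (x : W1 (F1Q q M) n) :
    X.UW n (autW (dia q M d) n x) = autW (dia q M d) n (X.UW n x) := by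
  rw [X.UW_eq (Uq.uOp1 q M) n]
  exact DFunLike.congr_fun (Rel.commute_UW_diaW d n).eq x

/-- every `U_q` commutes with `T_l`, on the Kummer module -/
theorem UW_T {l : ℕ} [NeZero l] (hl : l.Prime) (hlN : ¬ l ∣ q * M) (x : W1 (F1Q q M) n) :
    X.UW n ((heckeOpT q M hl hlN).TW n x) = (heckeOpT q M hl hlN).TW n (X.UW n x) := by
  rw [X.UW_eq (Uq.uOp1 q M) n]
  exact DFunLike.congr_fun (Rel.commute_UW_TW hl hlN n).eq x

theorem UW_rho (σ : GQ) (x : W1 (F1Q q M) n) :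
    X.UW n (rho (F1Q q M) n σ x) = rho (F1Q q M) n σ (X.UW n x) :=
  (DFunLike.congr_fun (X.commute_rho_UW n σ).eq x).symm

theorem dia_dia_inv (d : (ZMod q)ˣ) (x : W1 (F1Q q M) n) :
    autW (dia q M d) n (autW (dia q M d⁻¹) n x) = x := by
  have h := DFunLike.congr_fun (diaW_mul (M := M) d d⁻¹ n) x
  rw [mul_inv_cancel, diaW_one] at h
  exact h.symm

theorem dia_inv_dia (d : (ZMod q)ˣ) (x : W1 (F1Q q M) n) :
    autW (dia q M d⁻¹) n (autW (dia q M d) n x) = x := by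
  have h := dia_dia_inv (M := M) n d⁻¹ x
  rwa [inv_inv] at h

theorem TW_dia {l : ℕ} [NeZero l] (hl : l.Prime) (hlN : ¬ l ∣ q * M) (d : (ZMod q)ˣ)
    (x : W1 (F1Q q M) n) :
    (heckeOpT q M hl hlN).TW n (autW (dia q M d) n x) =
      autW (dia q M d) n ((heckeOpT q M hl hlN).TW n x) :=
  DFunLike.congr_fun (Rel.commute_TW_diaW hl hlN d n).eq x

/-- **`U^t` commutes with the diamond operators.** -/
theorem Ut_dia (d : (ZMod q)ˣ) (x : W1 (F1Q q M) n) :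
    (wTw hq hc).UsW X n (autW (dia q M d) n x) = autW (dia q M d) n ((wTw hq hc).UsW X n x) := by
  have h1 : ∀ (e : (ZMod q)ˣ) (y : W1 (F1Q q M) n),
      autW (w hc) n (autW (dia q M e) n y) = autW (dia q M e⁻¹) n (autW (w hc) n y) :=
    fun e y => wW_diaW hc e n y
  rw [UsW_eq, UsW_eq, h1, UW_dia, h1, inv_inv]

/-- **`U^t` commutes with `G_ℚ`.** -/
theorem Ut_rho (σ : GQ) (x : W1 (F1Q q M) n) :
    (wTw hq hc).UsW X n (rho (F1Q q M) n σ x) = rho (F1Q q M) n σ ((wTw hq hc).UsW X n x) := by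
  have h1 : ∀ (e : (ZMod q)ˣ) (y : W1 (F1Q q M) n),
      autW (w hc) n (autW (dia q M e) n y) = autW (dia q M e⁻¹) n (autW (w hc) n y) :=
    fun e y => wW_diaW hc e n y
  have h2 : ∀ y : W1 (F1Q q M) n, rho (F1Q q M) n σ (autW (w hc) n y) =
      autW (w hc) n (autW (dia q M (eps q σ)⁻¹) n (rho (F1Q q M) n σ y)) :=
    fun y => rho_wW hq hc (actsBy_eps q σ) n y
  have h3 : ∀ y : W1 (F1Q q M) n, autW (w hc) n (rho (F1Q q M) n σ y) =
      autW (dia q M (eps q σ)⁻¹) n (rho (F1Q q M) n σ (autW (w hc) n y)) := by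
    intro y
    rw [h2, h1, inv_inv, dia_inv_dia]
  rw [UsW_eq, UsW_eq, h2, h3, UW_dia, UW_rho]

/-- **`U^t` commutes with `T_l`.** -/
theorem Ut_T {l : ℕ} [NeZero l] (hl : l.Prime) (hlN : ¬ l ∣ q * M) (x : W1 (F1Q q M) n) :
    (wTw hq hc).UsW X n ((heckeOpT q M hl hlN).TW n x) =
      (heckeOpT q M hl hlN).TW n ((wTw hq hc).UsW X n x) := by
  have h1 : ∀ (e : (ZMod q)ˣ) (y : W1 (F1Q q M) n),
      autW (w hc) n (autW (dia q M e) n y) = autW (dia q M e⁻¹) n (autW (w hc) n y) :=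
    fun e y => wW_diaW hc e n y
  have h2 : ∀ y : W1 (F1Q q M) n, (heckeOpT q M hl hlN).TW n (autW (w hc) n y) =
      autW (w hc) n ((heckeOpT q M hl hlN).TW n (autW (dia q M (unitL q M hl hlN)⁻¹) n y)) :=
    fun y => Rel.TW_wW hc hl hlN n y
  have h3 : ∀ y : W1 (F1Q q M) n, autW (w hc) n ((heckeOpT q M hl hlN).TW n y) =
      (heckeOpT q M hl hlN).TW n (autW (dia q M (unitL q M hl hlN)⁻¹) n (autW (w hc) n y)) := by
    intro y
    rw [← h1, h2, dia_inv_dia]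
  rw [UsW_eq, UsW_eq, h3, h2, UW_T, UW_dia, TW_dia]

/-! ### the two levels -/

theorem w_up (x : W1 (modularFunctionFieldFull (q * M)) n) :
    autW (w hc) n (Pi.up q M n x) = Pi.up q M n (autW (w0 hc) n x) :=
  Pi.autW_piUp_of (Pi.pair q M) (w0 hc) (w hc) (fun u => w_alphaB hc u) n x

theorem w0_dn (x : W1 (F1Q q M) n) :
    autW (w0 hc) n (Pi.dn q M n x) = Pi.dn q M n (autW (w hc) n x) :=
  Pi.autW_piDown_of (Pi.pair q M) (w0 hc) (w hc) (fun u => w_alphaB hc u) n x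

theorem w0W_w0W (y : W1 (modularFunctionFieldFull (q * M)) n) :
    autW (w0 hc) n (autW (w0 hc) n y) = y := by
  obtain ⟨u, rfl⟩ := cls_surjective y
  rw [autW_cls, autW_cls]
  refine congrArg cls (Subtype.ext (Units.ext ?_))
  exact w0_w0 hc _

variable (X0 : U.UOp (modularFunctionFieldFull (q * M)) q)

/-- **`π_* U^t = (w0 U_0 w0) π_*`.** -/
theorem dn_Ut (hq2 : q ≠ 2) (x : W1 (F1Q q M) n) :
    Pi.dn q M n ((wTw hq hc).UsW X n x) =
      autW (w0 hc) n (X0.UW n (autW (w0 hc) n (Pi.dn q M n x))) := by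
  have : Fact q.Prime := ⟨hq⟩
  rw [UsW_eq, ← w0_dn, ← Pi.UW_dn X0 X hq2 (fun e y => Triv.U_dia X e y), ← w0_dn]

/-- **`U^t π^* = π^* (w0 U_0 w0)`.** -/
theorem Ut_up (y : W1 (modularFunctionFieldFull (q * M)) n) :
    (wTw hq hc).UsW X n (Pi.up q M n y) =
      Pi.up q M n (autW (w0 hc) n (X0.UW n (autW (w0 hc) n y))) := by
  rw [UsW_eq, w_up, Pi.UW_up X0 X, w_up]

end

end Fermat.Agent.S43.Ops

end
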